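/-
Cluster GAL, block E (architect helper203).  SKELETON: exact statements of all nodes.
Every node goes to its own file `Fermat/Agent/GAL/E/<Name>.lean` (see the task table, GAL-E*).
This file is never imported by a graded file.
-/
import Fermat.Agent.GAL.E.Defs
import Fermat.Agent.S24.Export.Ramification
import Fermat.Prelude.Def_EllipticCurve_FrobeniusTrace

set_option autoImplicit false

noncomputable section

namespace Fermat.Agent.GAL.E

open ModularCurve AlgebraicCurve Fermat.Agent.S24 Fermat.Agent.S24.B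

/-! ### E1  NormDvd.lean : divisibility of the divisor of a norm (general function fields) -/

theorem dvd_ord_norm {K F F' : Type*} [Field K] [IsAlgClosed K] [CharZero K] [Field F] [Field F']
    [Algebra K F] [Algebra K F'] [Algebra F F'] [IsScalarTower K F F'] [FF.IsFF1 K F]
    [FF.IsFF1 K F'] [Module.Finite F F'] (n : ℤ) (y : F')
    (hy : ∀ w : Place K F', n ∣ w.ord y) (v : Place K F) : n ∣ v.ord (Algebra.norm F y) := by
  sorry

/-! ### E2  Degree.lean : `FN (N ℓ)` over `FN N` and over `β (FN N)` -/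

section Degree
variable (N ℓ : ℕ) [NeZero N] [NeZero ℓ]

theorem finite_algAlpha : letI := algAlpha N ℓ; Module.Finite (FN N) (FN (N * ℓ)) := by
  sorry

theorem finrank_algAlpha (hℓ : ℓ.Prime) (hℓN : ¬ ℓ ∣ N) :
    letI := algAlpha N ℓ; Module.finrank (FN N) (FN (N * ℓ)) = ℓ + 1 := by
  sorry

theorem heckeBetaBarIntegral : HeckeBetaBarIntegral Kbar N ℓ := by
  sorry

end Degree

/-! ### E3  KumHecke.lean : the Hecke operator preserves Kummer elements (from E1, E2) -/

theorem IsKum.beta {N n : ℕ} (ℓ : ℕ) [NeZero N] [NeZero ℓ] {u : FN N} (hu : IsKum N n u) :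
    IsKum (N * ℓ) n (heckeBetaBar Kbar N ℓ u) := by
  sorry

theorem IsKum.heckeF {N n : ℕ} (ℓ : ℕ) [NeZero N] [NeZero ℓ] {u : FN N} (hu : IsKum N n u) :
    IsKum N n (heckeF N ℓ u) := by
  sorry

/-! ### E4  NormProd.lean : norm = product over a full set of embeddings (abstract) -/

theorem algebraMap_norm_eq_prod {F E Ω ι : Type*} [Field F] [Field E] [Field Ω] [Algebra F E]
    [Algebra F Ω] [FiniteDimensional F E] [Algebra.IsSeparable F E] [Fintype ι]
    (τ : ι → E →ₐ[F] Ω) (hτ : Function.Injective τ) (hcard : Fintype.card ι = Module.finrank F E)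
    (y : E) : algebraMap F Ω (Algebra.norm F y) = ∏ i, τ i y := by
  sorry

/-! ### E5  Embed.lean : the `ℓ + 1` embeddings of `FN (N ℓ)` over `FN N` -/

section Embed
variable (N ℓ : ℕ) [NeZero N] [NeZero ℓ]

/-- For every `b` there is a ring hom `FN (N ℓ) → ℚ̄((t))`, `t = q^(1/(N ℓ))`, which is
`x(q) ↦ x(t^(N ℓ))` on `FN N` and `x(q^ℓ) ↦ x(ζ^b t^N)` on `β (FN N)`
(it is `y ↦ texpL (γ_b • Psi y)` for a suitable `γ_b ∈ Γ₀(N)`). -/
theorem exists_embedding (hℓN : Nat.Coprime ℓ N) (b : ℕ) :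
    ∃ τ : FN (N * ℓ) →+* LaurentSeries Kbar,
      (∀ x : FN N, τ (heckeAlphaBar Kbar N ℓ x) = qExpand Kbar (N * ℓ) (x : LaurentSeries Kbar)) ∧
      (∀ x : FN N, τ (heckeBetaBar Kbar N ℓ x) =
        qExpand Kbar N (twist (zetaK ℓ ^ b) (x : LaurentSeries Kbar))) := by
  sorry

end Embed

/-! ### E6  QExp.lean : the product formula for the `q`-expansion of the Hecke operator -/

theorem qExpand_heckeF (N ℓ : ℕ) [NeZero N] [NeZero ℓ] (hℓ : ℓ.Prime) (hℓN : ¬ ℓ ∣ N) (u : FN N) :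
    qExpand Kbar ℓ ((heckeF N ℓ u : FN N) : LaurentSeries Kbar) =
      qExpand Kbar (ℓ * ℓ) (u : LaurentSeries Kbar) *
        ∏ b ∈ Finset.range ℓ, twist (zetaK ℓ ^ b) (u : LaurentSeries Kbar) := by
  sorry

theorem heckeF_algebraMap (N ℓ : ℕ) [NeZero N] [NeZero ℓ] (hℓ : ℓ.Prime) (hℓN : ¬ ℓ ∣ N)
    (c : Kbar) : heckeF N ℓ (algebraMap Kbar (FN N) c) = algebraMap Kbar (FN N) (c ^ (ℓ + 1)) := by
  sorry

/-! ### E7  GalHecke.lean : Galois commutes with Hecke (from E6) -/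

theorem galF_heckeF (N ℓ : ℕ) [NeZero N] [NeZero ℓ] (hℓ : ℓ.Prime) (hℓN : ¬ ℓ ∣ N) (σ : GQ)
    (u : FN N) : galF N σ (heckeF N ℓ u) = heckeF N ℓ (galF N σ u) := by
  sorry

/-! ### E8  FiniteLevel.lean : every element of `FN N` is fixed by an open subgroup -/

theorem exists_finite_level (N : ℕ) (u : FN N) :
    ∃ L : IntermediateField ℚ Kbar, FiniteDimensional ℚ L ∧
      ∀ σ : GQ, (∀ x ∈ L, σ x = x) → galF N σ u = u := by
  sorry

/-! ### E9  Discrete.lean : a bounded family in a number field has an element of maximal size -/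

theorem exists_max_of_bounded (A : ValuationSubring Kbar) (ℓ : ℕ) (hℓ : ℓ.Prime)
    (hA : A.LiesOverPrime ℓ) (L : IntermediateField ℚ Kbar) [FiniteDimensional ℚ L]
    (S : Set Kbar) (hSL : ∀ s ∈ S, s ∈ L) (hne : ∃ s ∈ S, s ≠ 0)
    (c : Kbar) (hc : c ≠ 0) (hbd : ∀ s ∈ S, c * s ∈ A) :
    ∃ s₀ ∈ S, s₀ ≠ 0 ∧ ∀ s ∈ S, s / s₀ ∈ A := by
  sorry

/-! ### E10  Scaling.lean : Gauss normalisation of elements of `FN N` -/

/-- series with coefficients in `A` come from `A((q))` -/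
theorem exists_incl_eq (A : ValuationSubring Kbar) (z : LaurentSeries Kbar)
    (hz : ∀ k, z.coeff k ∈ A) : ∃ x : LaurentSeries A, incl A x = z := by
  sorry

theorem incl_injective (A : ValuationSubring Kbar) : Function.Injective (incl A) := by
  sorry

/-- elements of the `ℚ̄`-algebra generated by the `j(q^d)` have bounded coefficients in a number
field -/
theorem exists_bound_of_mem_adjoin (A : ValuationSubring Kbar) (N : ℕ) (z : LaurentSeries Kbar)
    (hz : z ∈ Algebra.adjoin Kbar (Formal.genSer N)) :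
    (∃ L : IntermediateField ℚ Kbar, FiniteDimensional ℚ L ∧ ∀ k, z.coeff k ∈ L) ∧
      ∃ c : Kbar, c ≠ 0 ∧ ∀ k, c * z.coeff k ∈ A := by
  sorry

theorem exists_scaling (A : ValuationSubring Kbar) (ℓ : ℕ) (hℓ : ℓ.Prime)
    (hA : A.LiesOverPrime ℓ) (N : ℕ) (u : FN N) (hu : u ≠ 0) :
    ∃ (c : Kbar) (x y : LaurentSeries A) (hx : incl A x ∈ modularFunctionFieldBar N)
      (hy : incl A y ∈ modularFunctionFieldBar N), c ≠ 0 ∧ red A x ≠ 0 ∧ red A y ≠ 0 ∧
      u = algebraMap Kbar (FN N) c * ((⟨incl A x, hx⟩ : FN N) / ⟨incl A y, hy⟩) := by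
  sorry

/-! ### E11  Frob.lean : Frobenius congruences for Laurent series -/

theorem pow_char_eq_qExpand {k : Type*} [Field k] (ℓ : ℕ) [Fact ℓ.Prime] [CharP k ℓ]
    (x : LaurentSeries k) : x ^ ℓ = qExpand k ℓ (coeffMap (frobenius k ℓ) x) := by
  sorry

theorem charP_residueField (A : ValuationSubring Kbar) (ℓ : ℕ) (hℓ : ℓ.Prime)
    (hA : A.LiesOverPrime ℓ) : CharP (IsLocalRing.ResidueField A) ℓ := by
  sorry

/-- twisting by an `ℓ`-th root of unity does not change the reduction -/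
theorem exists_twist (A : ValuationSubring Kbar) (ℓ : ℕ) (hℓ : ℓ.Prime) (hA : A.LiesOverPrime ℓ)
    (ζ : Kbarˣ) (hζ : ζ ^ ℓ = 1) (x : LaurentSeries A) :
    ∃ x' : LaurentSeries A, incl A x' = twist ζ (incl A x) ∧ red A x' = red A x := by
  sorry

/-- an element of the inertia group does not change the reduction -/
theorem exists_gal_of_inertia (A : ValuationSubring Kbar) (σ : GQ)
    (hσ : σ ∈ A.inertiaSubgroupIn ℚ) (x : LaurentSeries A) :
    ∃ x' : LaurentSeries A, incl A x' = coeffMap (σ : Kbar →+* Kbar) (incl A x) ∧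
      red A x' = red A x := by
  sorry

/-- a Frobenius element acts on reductions as the Frobenius of the coefficients -/
theorem exists_gal_of_frobenius (A : ValuationSubring Kbar) (ℓ : ℕ) [Fact ℓ.Prime]
    [CharP (IsLocalRing.ResidueField A) ℓ] (σ : GQ) (hσ : A.IsFrobeniusAt σ ℓ)
    (x : LaurentSeries A) :
    ∃ x' : LaurentSeries A, incl A x' = coeffMap (σ : Kbar →+* Kbar) (incl A x) ∧
      red A x' = coeffMap (frobenius (IsLocalRing.ResidueField A) ℓ) (red A x) := by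
  sorry

/-! ### E12  HeckeRed.lean : the Hecke operator on integral elements (from E6, E10, E11) -/

theorem exists_heckeF_red (A : ValuationSubring Kbar) (N ℓ : ℕ) [NeZero N] [Fact ℓ.Prime]
    [CharP (IsLocalRing.ResidueField A) ℓ] (hA : A.LiesOverPrime ℓ) (hℓN : ¬ ℓ ∣ N)
    (x : LaurentSeries A) (hx : incl A x ∈ modularFunctionFieldBar N) :
    haveI : NeZero ℓ := ⟨(Fact.out : ℓ.Prime).ne_zero⟩
    ∃ t : LaurentSeries A, incl A t = ((heckeF N ℓ ⟨incl A x, hx⟩ : FN N) : LaurentSeries Kbar) ∧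
      red A t = qExpand _ ℓ (red A x) *
        coeffMap (frobenius (IsLocalRing.ResidueField A) ℓ) (red A x) := by
  sorry

/-! ### E13  Main.lean : the deliverables of block E -/

/-- The Hecke operator on the Kummer model. -/
def TT (N n ℓ : ℕ) [NeZero N] [NeZero ℓ] : AddMonoid.End (W N n) :=
  mapW (heckeU N ℓ) fun _ hu => IsKum.heckeF ℓ hu

theorem commute_rho_TT (N n ℓ : ℕ) [NeZero N] [NeZero ℓ] (hℓ : ℓ.Prime) (hℓN : ¬ ℓ ∣ N) (σ : GQ) :
    Commute (rho N n σ) (TT N n ℓ) := by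
  sorry

theorem exists_finite_level_W (N n : ℕ) (x : W N n) :
    ∃ L : IntermediateField ℚ Kbar, FiniteDimensional ℚ L ∧
      ∀ σ : GQ, (∀ y ∈ L, σ y = y) → rho N n σ x = x := by
  sorry

theorem rho_eq_one_of_inertia (N n : ℕ) (A : ValuationSubring Kbar) (ℓ : ℕ) (hℓ : ℓ.Prime)
    (hA : A.LiesOverPrime ℓ) (hKL : KL N A n) (σ : GQ) (hσ : σ ∈ A.inertiaSubgroupIn ℚ) :
    rho N n σ = 1 := by
  sorry

theorem eichler_shimura (N n ℓ : ℕ) [NeZero N] [NeZero ℓ] (hℓ : ℓ.Prime) (hℓN : ¬ ℓ ∣ N)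
    (A : ValuationSubring Kbar) (hA : A.LiesOverPrime ℓ) (hKL : KL N A n) (σ : GQ)
    (hσ : A.IsFrobeniusAt σ ℓ) (x : W N n) :
    rho N n σ (rho N n σ x) - TT N n ℓ (rho N n σ x) + ℓ • x = 0 := by
  sorry

end Fermat.Agent.GAL.E

end
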